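import Fermat.Agent.RIB.Ctrl.Kap.Red3

/-!
# ML / LOWER(A) / REAL-K0 : `[RK-APPROX]` the `K0`-tools at level `M q`

`C : S36.Ctx`.  Analogues, for the two expansions `C.e2 j` of `C.F'` (level `M q`), of `RIB/Ctrl/Kap/Red3` (level `M q²`).

* `a2 C j` (`= α'` for `j = 0`, `β'` for `j = 1`) : `C.FM → C.F'`, the identity on the residue fields of the component `j`
  (`e2_a2`, `redsTo_e2_a2`), the Frobenius on the other one (`redsTo_e2_a2_swap`);
* `exists_approx_a2`, `exists_redsTo2_Fb`, `exists_lift_e2`, `exists_redsTo2_const`;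
* `exists_unif2` : independent uniformisers `ϖ' j`, `v_j(ϖ' j) = v_j(q)`, `v_i(ϖ' j) = 1` (`i ≠ j`);
* `approx2` : weak approximation for the two components;  `approx2_redsTo` : in terms of `RedsTo`.
-/

set_option autoImplicit false
set_option linter.unusedSectionVars false

noncomputable section

open AlgebraicCurve ModularCurve

namespace Fermat.Agent.ML.Low

open Fermat.Agent.RIB Fermat.Agent.S36 Fermat.Agent.S24 Fermat.Agent.RED.Gauss

variable (C : S36.Ctx)

/-- `α'` for `j = 0`, `β'` for `j = 1`. -/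
def a2 (j : Fin 2) : C.FM →ₐ[C.K] C.F' := ![C.α', C.β'] j

theorem e2_a2 (j : Fin 2) (u : C.FM) : C.e2 j (a2 C j u) = C.e1 u := by
  fin_cases j
  · exact C.e2_zero_α' u
  · exact C.e2_one_β' u

theorem e2_a2_swap (j : Fin 2) (u : C.FM) :
    C.e2 j (a2 C (1 - j) u) = qExpand Kb C.q (C.e1 u) := by
  fin_cases j
  · exact C.e2_zero_β' u
  · exact C.e2_one_α' u

theorem redsTo_e2_a2 (j : Fin 2) {u : C.FM} {y : LaurentSeries C.k}
    (h : RedsTo C.π (C.e1 u) y) : RedsTo C.π (C.e2 j (a2 C j u)) y := by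
  rw [e2_a2]
  exact h

theorem redsTo_e2_a2_swap (j : Fin 2) {u : C.FM} {y : LaurentSeries C.k}
    (h : RedsTo C.π (C.e1 u) y) :
    RedsTo C.π (C.e2 j (a2 C (1 - j) u)) (qExpand C.k C.q y) := by
  rw [e2_a2_swap]
  exact h.qExpand C.q

theorem redsTo2_zero_of_val_lt (j : Fin 2) {z : C.F'} (hz : (C.O2 j).valuation z < 1) :
    RedsTo C.π (C.e2 j z) 0 :=
  (gv_valuation_lt_one_iff C.hπ (C.disc2 j)).1 hz

theorem val2_lt_one_of_redsTo (j : Fin 2) {z : C.F'} (hz : RedsTo C.π (C.e2 j z) 0) :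
    (C.O2 j).valuation z < 1 :=
  RedsTo.valuation_lt_one C.hπ (C.disc2 j) hz

theorem val2_eq_one_of_redsTo (j : Fin 2) {z : C.F'} {y : LaurentSeries C.k}
    (hz : RedsTo C.π (C.e2 j z) y) (hy : y ≠ 0) : (C.O2 j).valuation z = 1 :=
  RedsTo.valuation_eq_one C.hπ (C.disc2 j) hz hy

theorem redsTo2_of_mem (j : Fin 2) {g : C.F'} (hg : g ∈ C.O2 j) :
    RedsTo C.π (C.e2 j g) (C.red2 j ⟨g, hg⟩) := C.fm_redsTo_red2 j ⟨g, hg⟩

/-- valuations along `α` (component `0`) and `β` (component `2`). -/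
theorem val2_lt_one_iff_zero {z : C.F'} :
    (C.O2 0).valuation z < 1 ↔ (C.O3 0).valuation (C.α z) < 1 := by
  constructor
  · intro h
    have := redsTo2_zero_of_val_lt C 0 h
    rw [← C.e3_zero_α] at this
    exact RedsTo.valuation_lt_one C.hπ (C.disc3 0) this
  · intro h
    have := redsTo_zero_of_val_lt C 0 h
    rw [C.e3_zero_α] at this
    exact val2_lt_one_of_redsTo C 0 this

theorem val2_lt_one_iff_one {z : C.F'} :
    (C.O2 1).valuation z < 1 ↔ (C.O3 2).valuation (C.β z) < 1 := by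
  constructor
  · intro h
    have := redsTo2_zero_of_val_lt C 1 h
    rw [← C.e3_two_β] at this
    exact RedsTo.valuation_lt_one C.hπ (C.disc3 2) this
  · intro h
    have := redsTo_zero_of_val_lt C 2 h
    rw [C.e3_two_β] at this
    exact val2_lt_one_of_redsTo C 1 this

/-- residue degree one at level `M q`. -/
theorem exists_approx_a2 (j : Fin 2) {g : C.F'} (hg : g ∈ C.O2 j) :
    ∃ u ∈ C.O1, (C.O2 j).valuation (g - a2 C j u) < 1 := by
  fin_cases j
  · have h1 : C.α g ∈ C.O3 0 := by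
      have := (redsTo2_of_mem C 0 hg)
      rw [← C.e3_zero_α] at this
      exact this.1
    obtain ⟨u, hu, h⟩ := C.res₀ 0 (by decide) _ h1
    refine ⟨u, hu, ?_⟩
    show (C.O2 0).valuation (g - C.α' u) < 1
    rw [val2_lt_one_iff_zero, map_sub]
    exact h
  · have h1 : C.β g ∈ C.O3 2 := by
      have := (redsTo2_of_mem C 1 hg)
      rw [← C.e3_two_β] at this
      exact this.1
    obtain ⟨u, hu, h⟩ := C.res₂ 2 (by decide) _ h1
    refine ⟨u, hu, ?_⟩
    show (C.O2 1).valuation (g - C.β' u) < 1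
    rw [val2_lt_one_iff_one, map_sub]
    exact h

/-- the reductions on the two components have values in `C.Fb`. -/
theorem exists_redsTo2_Fb (j : Fin 2) {g : C.F'} (hg : g ∈ C.O2 j) :
    ∃ w : C.Fb, RedsTo C.π (C.e2 j g) (w : LaurentSeries C.k) := by
  obtain ⟨u, hu, h⟩ := exists_approx_a2 C j hg
  refine ⟨⟨C.red1 ⟨u, hu⟩, C.red1_mem _⟩, ?_⟩
  have h1 := redsTo2_zero_of_val_lt C j h
  have h2 := redsTo_e2_a2 C j (C.redsTo_of_mem_O1 hu)
  have h3 := h1.add h2
  rw [← map_add, sub_add_cancel, zero_add] at h3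
  exact h3

theorem red2_mem_Fb (j : Fin 2) (g : C.O2 j) : C.red2 j g ∈ C.Fb := by
  obtain ⟨w, hw⟩ := exists_redsTo2_Fb C j g.2
  rw [(C.fm_redsTo_red2 j g).unique hw]
  exact w.2

/-- every element of `C.Fb` lifts. -/
theorem exists_lift_e2 (j : Fin 2) (w : C.Fb) :
    ∃ g : C.F', RedsTo C.π (C.e2 j g) (w : LaurentSeries C.k) := by
  obtain ⟨⟨y, hy⟩, h⟩ := C.exists_red1_eq w.2
  refine ⟨a2 C j y, ?_⟩
  have h2 := redsTo_e2_a2 C j (C.redsTo_of_mem_O1 hy)
  rw [h] at h2
  exact h2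

/-- the reduction of a constant is a constant. -/
theorem exists_redsTo2_const (j : Fin 2) (r : C.R) :
    ∃ c : C.k, RedsTo C.π (C.e2 j (algebraMap C.R C.F' r))
      (algebraMap C.k (LaurentSeries C.k) c) ∧ (IsUnit r → c ≠ 0) := by
  have hmem : ∀ r : C.R, algebraMap C.K Kb (r : C.K) ∈ C.A := fun r =>
    (C.A.valuation_le_one_iff _).1 (mem_RK.1 r.2)
  refine ⟨C.π ⟨algebraMap C.K Kb (r : C.K), hmem r⟩, ?_, ?_⟩
  · rw [algebraMap_RK_F0, C.e2_const]
    have h := redsTo_C (π := C.π) ⟨algebraMap C.K Kb (r : C.K), hmem r⟩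
    rw [algebraMap_laurentSeries_eq_single]
    exact h
  · rintro ⟨u, rfl⟩ h0
    have h1 : (⟨algebraMap C.K Kb ((u : C.R) : C.K), hmem u⟩ : C.A) *
        ⟨algebraMap C.K Kb (((u⁻¹ : C.Rˣ) : C.R) : C.K), hmem _⟩ = 1 := by
      apply Subtype.ext
      show algebraMap C.K Kb ((u : C.R) : C.K) * algebraMap C.K Kb (((u⁻¹ : C.Rˣ) : C.R) : C.K) = 1
      rw [← map_mul]
      have : ((u : C.R) : C.K) * (((u⁻¹ : C.Rˣ) : C.R) : C.K) = 1 := by
        have := congrArg (Subtype.val) (u.mul_inv)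
        exact this
      rw [this, map_one]
    have h2 := congrArg C.π h1
    rw [map_mul, h0, zero_mul, map_one] at h2
    exact zero_ne_one h2

/-! ### the slope functions and the uniformisers -/

/-- `s_j = a_{1-j}(j) - a_j(j) ^ q` : zero on the component `j`, a unit on the other one. -/
def slope2 (j : Fin 2) : C.F' := a2 C (1 - j) C.jM - a2 C j C.jM ^ C.q

theorem redsTo_slope2_self (j : Fin 2) : RedsTo C.π (C.e2 j (slope2 C j)) 0 := by
  have h1 := redsTo_e2_a2_swap C j C.redsTo_e1_jM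
  have h2 := (redsTo_e2_a2 C j C.redsTo_e1_jM).pow C.q
  have h3 := h1.sub h2
  rw [SS.qExpand_jqModC_char, sub_self, ← map_pow, ← map_sub] at h3
  exact h3

theorem one_sub_one_sub (j : Fin 2) : 1 - (1 - j) = j := by
  fin_cases j <;> rfl

theorem redsTo_slope2_other (j : Fin 2) :
    RedsTo C.π (C.e2 (1 - j) (slope2 C j)) (jqModC C.k ^ 1 - jqModC C.k ^ (C.q * C.q)) := by
  have h1 := redsTo_e2_a2 C (1 - j) C.redsTo_e1_jM
  have h2 := (redsTo_e2_a2_swap C (1 - j) C.redsTo_e1_jM).pow C.q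
  rw [one_sub_one_sub] at h2
  have h3 := h1.sub h2
  rw [SS.qExpand_jqModC_char, ← pow_mul, ← map_pow, ← map_sub] at h3
  rw [pow_one]
  exact h3

theorem val_slope2_self (j : Fin 2) : (C.O2 j).valuation (slope2 C j) < 1 :=
  val2_lt_one_of_redsTo C j (redsTo_slope2_self C j)

theorem val_slope2_other (j : Fin 2) : (C.O2 (1 - j)).valuation (slope2 C j) = 1 := by
  refine val2_eq_one_of_redsTo C (1 - j) (redsTo_slope2_other C j) ?_
  refine jqModC_pow_sub_ne_zero C.A ?_
  have := C.hq.one_lt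
  nlinarith

/-- the uniformiser of the component `j`, a unit on the other one. -/
def unif2 (j : Fin 2) : C.F' := (C.q : C.F') + slope2 C j ^ 2

theorem val_unif2_self (j : Fin 2) :
    (C.O2 j).valuation (unif2 C j) = (C.O2 j).valuation (C.q : C.F') := by
  have hU := C.unif2 j
  have h1 : (C.O2 j).valuation (slope2 C j) ≤ (C.O2 j).valuation (C.q : C.F') :=
    hU.chart_le_of_lt_one (val_slope2_self C j)
  have h0 : (C.O2 j).valuation (C.q : C.F') ≠ 0 := hU.val_ne_zero
  have h2 : (C.O2 j).valuation (slope2 C j ^ 2) < (C.O2 j).valuation (C.q : C.F') := by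
    rw [map_pow, sq]
    calc (C.O2 j).valuation (slope2 C j) * (C.O2 j).valuation (slope2 C j)
        ≤ (C.O2 j).valuation (C.q : C.F') * (C.O2 j).valuation (slope2 C j) :=
          mul_le_mul_left h1 _
      _ < (C.O2 j).valuation (C.q : C.F') * 1 :=
          mul_lt_mul_of_pos_left (val_slope2_self C j) (zero_lt_iff.2 h0)
      _ = _ := mul_one _
  exact (C.O2 j).valuation.map_add_eq_of_lt_left h2

theorem val_unif2_other (j : Fin 2) : (C.O2 (1 - j)).valuation (unif2 C j) = 1 :=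
  val_add_eq_one_of_lt (C.unif2 (1 - j)).lt_one (by rw [map_pow, val_slope2_other, one_pow])

theorem val_unif2_of_ne {i j : Fin 2} (h : i ≠ j) : (C.O2 j).valuation (unif2 C i) = 1 := by
  have : j = 1 - i := by
    fin_cases i <;> fin_cases j <;> first | rfl | exact absurd rfl h
  rw [this]
  exact val_unif2_other C i

theorem isUnif_unif2 (j : Fin 2) : IsUnif (C.O2 j) (unif2 C j) where
  lt_one := by rw [val_unif2_self]; exact (C.unif2 j).lt_one
  ne_zero := by
    intro h
    have := val_unif2_self C j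
    rw [h, map_zero] at this
    exact (C.unif2 j).val_ne_zero this.symm
  disc := fun x hx => by
    rw [val_unif2_self]
    exact (C.unif2 j).disc x hx

/-- **weak approximation on the two components.** -/
theorem approx2 (ψ : Fin 2 → C.F') : ∃ V : C.F', ∀ j, (C.O2 j).valuation (V - ψ j) < 1 :=
  approx_of_isUnif C.O2 (unif2 C) (isUnif_unif2 C) (fun _ _ h => val_unif2_of_ne C h) ψ

/-- weak approximation, `RedsTo` form. -/
theorem approx2_redsTo (w : Fin 2 → C.Fb) :
    ∃ V : C.F', ∀ j, RedsTo C.π (C.e2 j V) (w j : LaurentSeries C.k) := by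
  choose U hU using fun j => exists_lift_e2 C j (w j)
  obtain ⟨V, hV⟩ := approx2 C U
  refine ⟨V, fun j => ?_⟩
  have h1 := (redsTo2_zero_of_val_lt C j (hV j)).add (hU j)
  rwa [← map_add, sub_add_cancel, zero_add] at h1

/-- the two components are distinct. -/
theorem O2_ne : C.O2 0 ≠ C.O2 1 := by
  intro h
  have h1 := val_slope2_self C 0
  have h2 : (C.O2 1).valuation (slope2 C 0) = 1 := val_slope2_other C 0
  rw [h, h2] at h1
  exact lt_irrefl _ h1

end Fermat.Agent.ML.Low
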